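import Mathlib
import Fermat.Agent.S30.Model.Main
import Fermat.Agent.S30.GaussBridge

/-!
# S30 / K1Main instantiation bricks: constants and transcendence inside `E((q))`

For a field `E` and an intermediate field `L` of `E((q)) / E`:

* `isAlgebraic_laurent_iff` / `algClosedIn_laurent` : `E` is algebraically closed in `E((q))`,
  hence in `L` (`Model.AlgClosedIn E L`).
* `transcendental_of_order_neg` / `transcendental_of_order_neg'` : an element with a pole is
  transcendental over `E`.
-/

set_option autoImplicit false

namespace Fermat.Agent.S30.Inst

open Polynomial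

variable {E : Type*} [Field E]

/-- The structure map `E → E((q))` is the constant-series map. -/
theorem algebraMap_laurent_eq_hC :
    algebraMap E (LaurentSeries E) = (HahnSeries.C : E →+* LaurentSeries E) := by
  refine RingHom.ext fun c => ?_
  rw [HahnSeries.algebraMap_apply', PowerSeries.algebraMap_apply, HahnSeries.ofPowerSeries_C]
  rfl

/-- A Laurent series with a pole is transcendental over the coefficient field. -/
theorem transcendental_of_order_neg (x : LaurentSeries E) (hx : x.order < 0) :
    Transcendental E x := by
  rintro ⟨P, hP0, hP⟩
  apply hP0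
  apply GaussBridge.eval₂_C_eq_zero x hx P
  rw [Polynomial.aeval_def, algebraMap_laurent_eq_hC] at hP
  exact hP

/-- A nonzero Laurent series without constant term is transcendental over the coefficient
field. -/
theorem transcendental_of_order_pos (x : LaurentSeries E) (hx : 0 < x.order) :
    Transcendental E x := by
  have hx0 : x ≠ 0 := by
    rintro rfl
    simp at hx
  have hinv : x⁻¹.order < 0 := by
    have h1 : (x * x⁻¹).order = x.order + x⁻¹.order :=
      HahnSeries.order_mul hx0 (inv_ne_zero hx0)
    rw [mul_inv_cancel₀ hx0, HahnSeries.order_one] at h1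
    omega
  intro hal
  exact transcendental_of_order_neg x⁻¹ hinv hal.inv

/-- **`E` is algebraically closed in `E((q))`.** -/
theorem exists_C_eq_of_isAlgebraic (x : LaurentSeries E) (hx : IsAlgebraic E x) :
    ∃ c : E, x = HahnSeries.C c := by
  by_cases hx0 : x = 0
  · exact ⟨0, by rw [hx0, map_zero]⟩
  have h1 : ¬ x.order < 0 := fun h => transcendental_of_order_neg x h hx
  have h2 : ¬ 0 < x.order := fun h => transcendental_of_order_pos x h hx
  have hord : x.order = 0 := by omega
  refine ⟨x.coeff 0, ?_⟩
  by_contra hne
  set y : LaurentSeries E := x - HahnSeries.C (x.coeff 0) with hy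
  have hy0 : y ≠ 0 := sub_ne_zero.mpr hne
  have hyalg : IsAlgebraic E y := by
    rw [hy, ← algebraMap_laurent_eq_hC]
    exact hx.sub (isAlgebraic_algebraMap (x.coeff 0))
  have h3 : ¬ y.order < 0 := fun h => transcendental_of_order_neg y h hyalg
  have h4 : ¬ 0 < y.order := fun h => transcendental_of_order_pos y h hyalg
  have hyord : y.order = 0 := by omega
  have h5 : y.coeff y.order ≠ 0 := fun h0 => hy0 (HahnSeries.coeff_order_eq_zero.mp h0)
  rw [hyord] at h5
  apply h5
  rw [hy, HahnSeries.coeff_sub, HahnSeries.C_apply, HahnSeries.coeff_single_same, sub_self]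

/-- **`E` is algebraically closed in any field between `E` and `E((q))`.** -/
theorem algClosedIn_laurent (L : IntermediateField E (LaurentSeries E)) :
    Model.AlgClosedIn E L := by
  intro x hx
  have hx' : IsAlgebraic E (x : LaurentSeries E) := by
    have := hx.algebraMap (A := LaurentSeries E)
    exact this
  obtain ⟨c, hc⟩ := exists_C_eq_of_isAlgebraic (x : LaurentSeries E) hx'
  refine ⟨c, ?_⟩
  apply Subtype.ext
  rw [hc, ← algebraMap_laurent_eq_hC, IntermediateField.coe_algebraMap_apply]

/-- An element of a field between `E` and `E((q))` with a pole is transcendental over `E`. -/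
theorem transcendental_of_order_neg' (L : IntermediateField E (LaurentSeries E)) (x : L)
    (hx : (x : LaurentSeries E).order < 0) : Transcendental E x := by
  intro hal
  have hx' : IsAlgebraic E (x : LaurentSeries E) := by
    have := hal.algebraMap (A := LaurentSeries E)
    exact this
  exact transcendental_of_order_neg (x : LaurentSeries E) hx hx'

end Fermat.Agent.S30.Inst
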