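import Mathlib
import Fermat.Agent.S30.Model.Main
import Fermat.Agent.S24.FF.Dedekind

/-!
# S30 / K1Main instantiation brick: `LocPow` from divisibility of all orders

`locPow_of_forall_place` : for `u : L` transcendental over `E` with `L / E(u)` finite, an element
`g ≠ 0` of `L` all of whose orders at the places of `L / E` (only those whose valuation ring
contains `u` are needed) are divisible by `p` satisfies `Model.LocPow p u g`.

The proof is the weak approximation theorem in the Dedekind domain `B` = integral closure of
`E[u]` in `L`: choose `τ` with `ord_w τ = ord_w g / p` at the finitely many primes `w` of `B`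
above `f(u)`; then `g / τ ^ p` and its inverse are units at those primes, hence integral after
multiplication by an element of `E[u]` prime to `f(u)`.
-/

set_option autoImplicit false

namespace Fermat.Agent.S30.Inst

open IsDedekindDomain WithZero AlgebraicCurve IntermediateField Polynomial

section Dedekind

variable {B : Type*} [CommRing B] [IsDedekindDomain B]

/-- Weak approximation, integral form: prescribed exact orders at finitely many primes. -/
theorem exists_intValuation_eq_exp (T : Finset (HeightOneSpectrum B))
    (m : HeightOneSpectrum B → ℕ) :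
    ∃ y : B, y ≠ 0 ∧ ∀ w ∈ T, w.intValuation y = exp (-(m w : ℤ)) := by
  classical
  rcases T.eq_empty_or_nonempty with rfl | hT
  · exact ⟨1, one_ne_zero, by simp⟩
  have hx : ∀ w : HeightOneSpectrum B,
      ∃ x : B, x ∈ w.asIdeal ^ (m w) ∧ x ∉ w.asIdeal ^ (m w + 1) := fun w =>
    Ideal.exists_mem_pow_notMem_pow_succ w.asIdeal w.ne_bot w.isPrime.ne_top (m w)
  choose x hx1 hx2 using hx
  obtain ⟨y, hy⟩ := IsDedekindDomain.exists_forall_sub_mem_ideal (s := T)
    (fun w => w.asIdeal) (fun w => m w + 1) (fun w _ => w.prime)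
    (fun w _ w' _ hne h => hne (HeightOneSpectrum.ext h)) (fun w => x w.1)
  have key : ∀ w ∈ T, y ∈ w.asIdeal ^ (m w) ∧ y ∉ w.asIdeal ^ (m w + 1) := by
    intro w hw
    have h1 : y - x w ∈ w.asIdeal ^ (m w + 1) := hy w hw
    constructor
    · have h2 : y = (y - x w) + x w := by ring
      rw [h2]
      exact Ideal.add_mem _ (Ideal.pow_le_pow_right (Nat.le_succ _) h1) (hx1 w)
    · intro h2
      apply hx2 w
      have h3 : x w = y - (y - x w) := by ring
      rw [h3]
      exact Ideal.sub_mem _ h2 h1
  have hy0 : y ≠ 0 := by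
    obtain ⟨w, hw⟩ := hT
    rintro rfl
    exact (key w hw).2 (Ideal.zero_mem _)
  refine ⟨y, hy0, fun w hw => ?_⟩
  obtain ⟨h1, h2⟩ := key w hw
  rw [← HeightOneSpectrum.intValuation_le_pow_iff_mem] at h1 h2
  have hv0 : w.intValuation y ≠ 0 := w.intValuation_ne_zero y hy0
  rw [← WithZero.exp_log hv0] at h1 h2 ⊢
  rw [WithZero.exp_le_exp] at h1 h2
  rw [WithZero.exp_inj]
  push_cast at h2
  omega

variable {L : Type*} [Field L] [Algebra B L] [IsFractionRing B L]

/-- Weak approximation, field form: prescribed orders (of either sign) at finitely many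
primes. -/
theorem exists_valuation_eq_exp (T : Finset (HeightOneSpectrum B))
    (n : HeightOneSpectrum B → ℤ) :
    ∃ τ : L, τ ≠ 0 ∧ ∀ w ∈ T, w.valuation L τ = exp (-(n w)) := by
  obtain ⟨y₁, hy₁, h₁⟩ := exists_intValuation_eq_exp T (fun w => (n w).toNat)
  obtain ⟨y₂, hy₂, h₂⟩ := exists_intValuation_eq_exp T (fun w => (-(n w)).toNat)
  have hinj := IsFractionRing.injective B L
  refine ⟨algebraMap B L y₁ / algebraMap B L y₂, ?_, fun w hw => ?_⟩
  · exact div_ne_zero (fun h => hy₁ (hinj (by rw [h, map_zero])))
      (fun h => hy₂ (hinj (by rw [h, map_zero])))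
  · rw [map_div₀, HeightOneSpectrum.valuation_of_algebraMap,
      HeightOneSpectrum.valuation_of_algebraMap, h₁ w hw, h₂ w hw, ← WithZero.exp_sub,
      WithZero.exp_inj]
    omega

/-- An element of the fraction field which is integral at all primes above `q` becomes integral
after multiplication by an element of the base ring prime to `q`. -/
theorem exists_mul_mem_of_valuation_le_one {A : Type*} [CommRing A] [IsDomain A]
    [WfDvdMonoid A] [Algebra A B] [Algebra.IsIntegral A B] [Algebra A L] [IsScalarTower A B L]
    (q : A) (hq : Irreducible q) (z : L)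
    (hz : ∀ w : HeightOneSpectrum B, algebraMap A B q ∈ w.asIdeal → w.valuation L z ≤ 1) :
    ∃ s : A, ¬ q ∣ s ∧ ∃ b : B, algebraMap B L b = algebraMap A L s * z := by
  obtain ⟨b₁, b₂, hb₂, rfl⟩ := IsFractionRing.div_surjective (A := B) z
  have hb₂0 : b₂ ≠ 0 := nonZeroDivisors.ne_zero hb₂
  have hb₂L : algebraMap B L b₂ ≠ 0 := fun h =>
    hb₂0 (IsFractionRing.injective B L (by rw [h, map_zero]))
  have hne : (Ideal.span {b₂}).comap (algebraMap A B) ≠ ⊥ :=
    Ideal.comap_ne_bot_of_integral_mem hb₂0 (Ideal.mem_span_singleton_self b₂)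
      (Algebra.IsIntegral.isIntegral b₂)
  obtain ⟨a, ha, ha0⟩ := Submodule.exists_mem_ne_zero_of_ne_bot hne
  rw [Ideal.mem_comap, Ideal.mem_span_singleton] at ha
  obtain ⟨c, hc⟩ := ha
  obtain ⟨k, s, hs, has⟩ := WfDvdMonoid.max_power_factor ha0 hq
  have hA : algebraMap A L q ^ k * algebraMap A L s = algebraMap B L b₂ * algebraMap B L c := by
    rw [← map_pow, ← map_mul, ← has, IsScalarTower.algebraMap_apply A B L, hc, map_mul]
  refine ⟨s, hs, ?_⟩
  refine HeightOneSpectrum.mem_integers_of_valuation_le_one L _ fun w => ?_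
  by_cases hw : algebraMap A B q ∈ w.asIdeal
  · rw [map_mul]
    have h1 : w.valuation L (algebraMap A L s) ≤ 1 := by
      rw [IsScalarTower.algebraMap_apply A B L]
      exact w.valuation_le_one _
    exact mul_le_one' h1 (hz w hw)
  · have hq1 : w.valuation L (algebraMap A L q) = 1 := by
      rw [IsScalarTower.algebraMap_apply A B L, HeightOneSpectrum.valuation_of_algebraMap,
        HeightOneSpectrum.intValuation_eq_one_iff]
      exact hw
    have hqL : algebraMap A L q ≠ 0 := by
      intro h
      rw [h, map_zero] at hq1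
      exact zero_ne_one hq1
    have heq : algebraMap A L s * (algebraMap B L b₁ / algebraMap B L b₂) =
        algebraMap B L (b₁ * c) / algebraMap A L q ^ k := by
      rw [map_mul, eq_div_iff (pow_ne_zero _ hqL)]
      field_simp
      linear_combination algebraMap B L b₁ * hA
    rw [heq, map_div₀, map_pow, hq1, one_pow, div_one]
    exact w.valuation_le_one _

end Dedekind

section Concrete

open scoped IntermediateField.algebraAdjoinAdjoin

variable {E L : Type*} [Field E] [CharZero E] [Field L] [Algebra E L]

/-- **`LocPow` from divisibility of the orders at all (finite) places.** -/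
theorem locPow_of_forall_place' (u : L) (hu : Transcendental E u)
    [FiniteDimensional E⟮u⟯ L] (p : ℕ) (g : L) (hg : g ≠ 0)
    (h : ∀ P : Place E L, u ∈ P.toValuationSubring → (p : ℤ) ∣ P.ord g) :
    Model.LocPow (E := E) p u g := by
  classical
  have : IsPrincipalIdealRing (Algebra.adjoin E {u}) :=
    S24.FF.polyRing_isPrincipalIdealRing E u hu
  have : IsDedekindDomain (integralClosure (Algebra.adjoin E {u}) L) :=
    integralClosure.isDedekindDomain (Algebra.adjoin E {u}) E⟮u⟯ L
  have : IsFractionRing (integralClosure (Algebra.adjoin E {u}) L) L :=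
    integralClosure.isFractionRing_of_finite_extension E⟮u⟯ L
  have : IsScalarTower E (integralClosure (Algebra.adjoin E {u}) L) L :=
    IsScalarTower.of_algebraMap_eq (fun c => by simp [Algebra.algebraMap_eq_smul_one])
  intro f hf
  -- the prime element `f(u)` of `E[u]`
  set e := Polynomial.algEquivOfTranscendental E u hu with he
  set q : Algebra.adjoin E {u} := e f with hqdef
  have hqL : (q : L) = aeval u f := by
    rw [hqdef, he, Polynomial.algEquivOfTranscendental_apply, Polynomial.aeval_subalgebra_coe]
  have hqirr : Irreducible q := (MulEquiv.irreducible_iff e.toMulEquiv).mpr hf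
  have hq0 : algebraMap (Algebra.adjoin E {u}) (integralClosure (Algebra.adjoin E {u}) L) q ≠ 0 := by
    intro h0
    apply hqirr.ne_zero
    apply Subtype.ext
    exact congrArg (fun b : integralClosure (Algebra.adjoin E {u}) L => (b : L)) h0
  -- the finitely many primes above `f(u)`
  have hfin : {w : HeightOneSpectrum (integralClosure (Algebra.adjoin E {u}) L) |
      algebraMap (Algebra.adjoin E {u}) (integralClosure (Algebra.adjoin E {u}) L) q ∈
        w.asIdeal}.Finite := by
    have h1 := Ideal.finite_factors (I := Ideal.span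
      {algebraMap (Algebra.adjoin E {u}) (integralClosure (Algebra.adjoin E {u}) L) q})
      (by rwa [ne_eq, Ideal.zero_eq_bot, Ideal.span_singleton_eq_bot])
    refine h1.subset fun w hw => ?_
    rw [Set.mem_ofPred_eq, Ideal.dvd_span_singleton]
    exact hw
  -- the orders
  have hu_mem : ∀ w : HeightOneSpectrum (integralClosure (Algebra.adjoin E {u}) L),
      u ∈ (Place.ofHeightOneSpectrum (K := E) (F := L) w).toValuationSubring := by
    intro w
    have hui : IsIntegral (Algebra.adjoin E {u}) u :=
      isIntegral_algebraMap (x := (⟨u, Algebra.self_mem_adjoin_singleton E u⟩ :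
        Algebra.adjoin E {u}))
    exact w.valuation_le_one (⟨u, hui⟩ : integralClosure (Algebra.adjoin E {u}) L)
  have hval : ∀ w : HeightOneSpectrum (integralClosure (Algebra.adjoin E {u}) L),
      w.valuation L g = exp (-((Place.ofHeightOneSpectrum (K := E) (F := L) w).ord g)) := by
    intro w
    rw [S24.FF.ord_ofHeightOneSpectrum (K := E) w hg, neg_neg, WithZero.exp_log]
    exact (Valuation.ne_zero_iff _).mpr hg
  obtain ⟨τ, hτ0, hτ⟩ := exists_valuation_eq_exp (L := L) hfin.toFinset
    (fun w => (Place.ofHeightOneSpectrum (K := E) (F := L) w).ord g / (p : ℤ))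
  have hτp : ∀ w : HeightOneSpectrum (integralClosure (Algebra.adjoin E {u}) L),
      algebraMap (Algebra.adjoin E {u}) (integralClosure (Algebra.adjoin E {u}) L) q ∈ w.asIdeal →
      w.valuation L (τ ^ p) = w.valuation L g := by
    intro w hw
    rw [map_pow, hτ w (hfin.mem_toFinset.mpr hw), hval w, ← WithZero.exp_nsmul, WithZero.exp_inj,
      nsmul_eq_mul, mul_neg, Int.mul_ediv_cancel' (h _ (hu_mem w))]
  have hg0 : ∀ w : HeightOneSpectrum (integralClosure (Algebra.adjoin E {u}) L),
      w.valuation L g ≠ 0 := fun w => (Valuation.ne_zero_iff _).mpr hg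
  -- conversion of the output of the approximation lemma
  have hconv : ∀ z : L, (∀ w : HeightOneSpectrum (integralClosure (Algebra.adjoin E {u}) L),
      algebraMap (Algebra.adjoin E {u}) (integralClosure (Algebra.adjoin E {u}) L) q ∈ w.asIdeal →
      w.valuation L z ≤ 1) →
      Model.IsIntegralAt (Algebra.adjoin E {u}) (aeval u f) z := by
    intro z hz
    obtain ⟨s, hs, b, hb⟩ := exists_mul_mem_of_valuation_le_one (L := L) q hqirr z hz
    refine ⟨(s : L), s.2, ?_, ?_⟩
    · intro c hc hsc
      apply hs
      refine ⟨⟨c, hc⟩, ?_⟩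
      apply Subtype.ext
      rw [hsc, ← hqL]
      rfl
    · have hb' : (b : L) = (s : L) * z := hb
      rw [← hb']
      exact b.2
  refine ⟨τ, hτ0, hconv _ fun w hw => ?_, hconv _ fun w hw => ?_⟩
  · rw [map_div₀, hτp w hw, div_self (hg0 w)]
  · rw [map_div₀, hτp w hw, div_self (hg0 w)]

/-- **`LocPow` from divisibility of the orders at all places** (the shape of the hypothesis of
`S18.K1Defs.K1E`). -/
theorem locPow_of_forall_place (u : L) (hu : Transcendental E u)
    [FiniteDimensional E⟮u⟯ L] (p : ℕ) (g : L) (hg : g ≠ 0)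
    (h : ∀ P : Place E L, (p : ℤ) ∣ P.ord g) :
    Model.LocPow (E := E) p u g :=
  locPow_of_forall_place' u hu p g hg fun P _ => h P

end Concrete

end Fermat.Agent.S30.Inst
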